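import Fermat.Agent.TOR.NF.AL

/-!
# TOR / NF : the Atkin–Lehner operator at `q` commutes with `T_ℓ`, `ℓ ∤ q M'`
-/

set_option autoImplicit false

open Matrix.SpecialLinearGroup UpperHalfPlane
open scoped MatrixGroups ModularForm
open P2MW.S_ModularForm_heckeT_slash_eq_self_of_mem_Gamma0.ModularForm.HeckeSlashInvariance

namespace Fermat.Agent.TOR.NF

variable {q M' : ℕ}

theorem Inv.heckeT {N ℓ : ℕ} (hℓ : ℓ.Prime) (hℓN : ¬ ℓ ∣ N) {f : ℍ → ℂ} (hf : Inv N f) :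
    Inv N (ModularForm.heckeT 2 ℓ f) :=
  Inv.of_forall (ModularForm.heckeT_slash_eq_self_of_mem_Gamma0 2 hℓ hℓN hf.forall)

theorem Inv.heckeU {N p : ℕ} [NeZero N] (hpN : p ∣ N) {f : ℍ → ℂ} (hf : Inv N f) :
    Inv N (ModularForm.heckeU 2 p f) :=
  Inv.of_forall (ModularForm.heckeU_slash_eq_self_of_mem_Gamma0 2 hpN hf.forall)

/-- commutation, term by term (finite part). -/
theorem slash_heckeMatrix_alMat (hq : 0 < q) {ℓ : ℕ} (hℓ : 0 < ℓ) {f : ℍ → ℂ}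
    (hf : Inv (q * M') f) {x y : ℤ} (h0 : (q : ℤ) * x * 1 - M' * (ℓ * y) * ℓ = 1) (j j' : ℕ)
    (hj : (ℓ : ℤ) ∣ (q : ℤ) * j - j') :
    (f ∣[(2 : ℤ)] ModularForm.heckeMatrix ℓ j) ∣[(2 : ℤ)]
        glZ (alMat q M' x (ℓ * y) ℓ 1) (alMat_det_pos hq M' h0) =
      (f ∣[(2 : ℤ)] glZ (alMat q M' x (ℓ * y) ℓ 1) (alMat_det_pos hq M' h0)) ∣[(2 : ℤ)]
        ModularForm.heckeMatrix ℓ j' := by
  obtain ⟨s, hs⟩ := hj
  have hℓZ : (0 : ℤ) < ℓ := by exact_mod_cast hℓ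
  have hqZ : (0 : ℤ) < q := by exact_mod_cast hq
  have hβ : ∀ i : ℕ, 0 < (!![1, (i : ℤ); 0, (ℓ : ℤ)]).det := by
    intro i; rw [Matrix.det_fin_two_of]; simpa using hℓZ
  set t : ℤ := y + s - j' * M' * ℓ * y - j' * j * q * M' with ht
  have h1 : (q : ℤ) * (x + j * M' * ℓ) * (1 - j' * M' * ℓ) - M' * t * (ℓ * ℓ) = 1 := by
    rw [ht]
    linear_combination (1 - (j' : ℤ) * M' * ℓ) * h0 + (M' : ℤ) * ℓ * hs
  set C : Matrix (Fin 2) (Fin 2) ℤ :=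
    !![(q : ℤ) * x + j * ((q : ℤ) * M' * ℓ), ℓ * y + j * q; ℓ * ((q : ℤ) * M' * ℓ), ℓ * q] with hC
  have hCdet : 0 < C.det := by
    have : C.det = ℓ * q := by
      rw [hC, Matrix.det_fin_two_of]
      linear_combination (ℓ : ℤ) * q * h0
    rw [this]; positivity
  have hm1 : !![1, (j : ℤ); 0, (ℓ : ℤ)] * alMat q M' x (ℓ * y) ℓ 1 = C := by
    ext i k
    fin_cases i <;> fin_cases k <;>
      simp only [hC, alMat, Matrix.mul_apply, Fin.sum_univ_two, Matrix.of_apply, Fin.zero_eta,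
        Fin.mk_one, Fin.isValue, Matrix.cons_val', Matrix.cons_val_zero, Matrix.cons_val_one,
        Matrix.cons_val_fin_one] <;> ring
  have hm2 : alMat q M' (x + j * M' * ℓ) t (ℓ * ℓ) (1 - j' * M' * ℓ) * !![1, (j' : ℤ); 0, (ℓ : ℤ)]
      = C := by
    ext i k
    fin_cases i <;> fin_cases k <;>
      simp only [hC, alMat, Matrix.mul_apply, Fin.sum_univ_two, Matrix.of_apply, Fin.zero_eta,
        Fin.mk_one, Fin.isValue, Matrix.cons_val', Matrix.cons_val_zero, Matrix.cons_val_one,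
        Matrix.cons_val_fin_one]
    · ring
    · rw [ht]
      linear_combination (j' : ℤ) * h0 - hs
    · ring
    · ring
  rw [heckeMatrix_eq_glZ hℓ.ne' j (hβ j), heckeMatrix_eq_glZ hℓ.ne' j' (hβ j'),
    slash_glZ_mul 2 (hβ j) (alMat_det_pos hq M' h0) hCdet hm1,
    ← slash_alMat_eq hq hf h0 h1,
    slash_glZ_mul 2 (alMat_det_pos hq M' h1) (hβ j') hCdet hm2]

/-- commutation, term by term (the diagonal matrix). -/
theorem slash_heckeDiagMatrix_alMat (hq : 0 < q) {ℓ : ℕ} (hℓ : 0 < ℓ) {f : ℍ → ℂ}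
    (hf : Inv (q * M') f) {x y : ℤ} (h0 : (q : ℤ) * x * 1 - M' * (ℓ * y) * ℓ = 1) :
    (f ∣[(2 : ℤ)] ModularForm.heckeDiagMatrix ℓ) ∣[(2 : ℤ)]
        glZ (alMat q M' x (ℓ * y) ℓ 1) (alMat_det_pos hq M' h0) =
      (f ∣[(2 : ℤ)] glZ (alMat q M' x (ℓ * y) ℓ 1) (alMat_det_pos hq M' h0)) ∣[(2 : ℤ)]
        ModularForm.heckeDiagMatrix ℓ := by
  have hℓZ : (0 : ℤ) < ℓ := by exact_mod_cast hℓ
  have hqZ : (0 : ℤ) < q := by exact_mod_cast hq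
  have hβ : 0 < (!![(ℓ : ℤ), 0; 0, 1]).det := by
    rw [Matrix.det_fin_two_of]; simpa using hℓZ
  have h1 : (q : ℤ) * x * 1 - M' * (ℓ * ℓ * y) * 1 = 1 := by linear_combination h0
  set C : Matrix (Fin 2) (Fin 2) ℤ :=
    !![ℓ * ((q : ℤ) * x), ℓ * (ℓ * y); (q : ℤ) * M' * ℓ, q] with hC
  have hCdet : 0 < C.det := by
    have : C.det = ℓ * q := by
      rw [hC, Matrix.det_fin_two_of]
      linear_combination (ℓ : ℤ) * q * h0
    rw [this]; positivity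
  have hm1 : !![(ℓ : ℤ), 0; 0, 1] * alMat q M' x (ℓ * y) ℓ 1 = C := by
    ext i k
    fin_cases i <;> fin_cases k <;>
      simp only [hC, alMat, Matrix.mul_apply, Fin.sum_univ_two, Matrix.of_apply, Fin.zero_eta,
        Fin.mk_one, Fin.isValue, Matrix.cons_val', Matrix.cons_val_zero, Matrix.cons_val_one,
        Matrix.cons_val_fin_one] <;> ring
  have hm2 : alMat q M' x (ℓ * ℓ * y) 1 1 * !![(ℓ : ℤ), 0; 0, 1] = C := by
    ext i k
    fin_cases i <;> fin_cases k <;>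
      simp only [hC, alMat, Matrix.mul_apply, Fin.sum_univ_two, Matrix.of_apply, Fin.zero_eta,
        Fin.mk_one, Fin.isValue, Matrix.cons_val', Matrix.cons_val_zero, Matrix.cons_val_one,
        Matrix.cons_val_fin_one] <;> ring
  rw [heckeDiagMatrix_eq_glZ hℓ.ne' hβ,
    slash_glZ_mul 2 hβ (alMat_det_pos hq M' h0) hCdet hm1,
    ← slash_alMat_eq hq hf h0 h1,
    slash_glZ_mul 2 (alMat_det_pos hq M' h1) hβ hCdet hm2]

/-- `T_ℓ` commutes with the Atkin–Lehner operator at `q`. -/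
theorem heckeT_slash_alMat (hq : 0 < q) {ℓ : ℕ} (hℓ : ℓ.Prime) (hℓN : ¬ ℓ ∣ q * M') {f : ℍ → ℂ}
    (hf : Inv (q * M') f) {a b c d : ℤ} (h : (q : ℤ) * a * d - M' * b * c = 1) :
    ModularForm.heckeT 2 ℓ (f ∣[(2 : ℤ)] glZ (alMat q M' a b c d) (alMat_det_pos hq M' h)) =
      (ModularForm.heckeT 2 ℓ f) ∣[(2 : ℤ)] glZ (alMat q M' a b c d) (alMat_det_pos hq M' h) := by
  have : Fact ℓ.Prime := ⟨hℓ⟩
  have : NeZero ℓ := ⟨hℓ.ne_zero⟩
  have hℓq : ¬ ℓ ∣ q := fun h' => hℓN (h'.mul_right _)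
  have hcop1 : IsCoprime (q : ℤ) (M' : ℤ) := ⟨a * d, -(b * c), by linear_combination h⟩
  have hcop2 : IsCoprime (q : ℤ) (ℓ : ℤ) := by
    rw [Nat.isCoprime_iff_coprime]
    exact ((Nat.Prime.coprime_iff_not_dvd hℓ).mpr hℓq).symm
  obtain ⟨u, v, huv⟩ := hcop1.mul_right (hcop2.mul_right hcop2)
  have h0 : (q : ℤ) * u * 1 - M' * (ℓ * (-v)) * ℓ = 1 := by linear_combination huv
  rw [slash_alMat_eq hq hf h0 h, slash_alMat_eq hq (hf.heckeT hℓ hℓN) h0 h]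
  rw [ModularForm.heckeT_eq_heckeU_add, ModularForm.heckeT_eq_heckeU_add, SlashAction.add_slash,
    heckeU_eq_sum_zmod, heckeU_eq_sum_zmod, SlashAction.sum_slash,
    slash_heckeDiagMatrix_alMat hq hℓ.pos hf h0]
  congr 1
  have hq0 : (q : ZMod ℓ) ≠ 0 := by rwa [Ne, ZMod.natCast_eq_zero_iff]
  rw [← Equiv.sum_comp (Equiv.mulLeft₀ (q : ZMod ℓ) hq0) (fun x : ZMod ℓ =>
    (f ∣[(2 : ℤ)] glZ (alMat q M' u (ℓ * (-v)) ℓ 1) (alMat_det_pos hq M' h0)) ∣[(2 : ℤ)]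
      ModularForm.heckeMatrix ℓ x.val)]
  refine Finset.sum_congr rfl fun x _ => ?_
  rw [slash_heckeMatrix_alMat hq hℓ.pos hf h0 x.val ((Equiv.mulLeft₀ (q : ZMod ℓ) hq0) x).val]
  rw [← ZMod.intCast_zmod_eq_zero_iff_dvd]
  push_cast
  rw [ZMod.natCast_zmod_val, ZMod.natCast_zmod_val, Equiv.mulLeft₀_apply, sub_self]

end Fermat.Agent.TOR.NF
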