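import Fermat.Agent.TOR.NF.EigenOps
import Fermat.Agent.S23.Main

/-!
# TOR / NF : a nonzero partial Hecke eigenspace contains a normalised eigenform
-/

set_option autoImplicit false

open CongruenceSubgroup ModularFormClass UpperHalfPlane
open Fermat.Agent.S49

namespace Fermat.Agent.TOR.NF

/-- A commuting family of endomorphisms stabilising a nonzero finite dimensional subspace has a
common eigenvector in it. -/
theorem exists_common_eigenvector {K V : Type*} [Field K] [IsAlgClosed K] [AddCommGroup V]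
    [Module K V] (𝒯 : Set (Module.End K V)) (hcomm : ∀ S ∈ 𝒯, ∀ T ∈ 𝒯, Commute S T) :
    ∀ (n : ℕ) (X : Submodule K V), FiniteDimensional K X → Module.finrank K X = n → X ≠ ⊥ →
      (∀ T ∈ 𝒯, ∀ x ∈ X, T x ∈ X) → ∃ v ∈ X, v ≠ 0 ∧ ∀ T ∈ 𝒯, ∃ c : K, T v = c • v := by
  intro n
  induction n using Nat.strong_induction_on with
  | _ n ih =>
    intro X hfd hn hX hstab
    by_cases hsc : ∀ T ∈ 𝒯, ∃ c : K, ∀ x ∈ X, T x = c • x
    · obtain ⟨v, hv, hv0⟩ := X.ne_bot_iff.mp hX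
      exact ⟨v, hv, hv0, fun T hT => (hsc T hT).imp fun c hc => hc v hv⟩
    · push Not at hsc
      obtain ⟨T, hT, hTns⟩ := hsc
      have : Nontrivial X := Submodule.nontrivial_iff_ne_bot.mpr hX
      obtain ⟨c, hc⟩ := Module.End.exists_eigenvalue (T.restrict (hstab T hT))
      obtain ⟨w, hw⟩ := hc.exists_hasEigenvector
      set Y : Submodule K V := X ⊓ LinearMap.ker (T - c • (1 : Module.End K V)) with hY
      have hmemY : ∀ x, x ∈ Y ↔ x ∈ X ∧ T x = c • x := by
        intro x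
        rw [hY, Submodule.mem_inf, LinearMap.mem_ker]
        simp [sub_eq_zero]
      have hYX : Y ≤ X := inf_le_left
      have hYne : Y ≠ ⊥ := by
        rw [Submodule.ne_bot_iff]
        refine ⟨w, (hmemY _).mpr ⟨w.2, ?_⟩, fun h0 => hw.2 (Subtype.ext h0)⟩
        have := congrArg Subtype.val hw.apply_eq_smul
        simpa using this
      have hYlt : Y < X := by
        refine lt_of_le_of_ne hYX fun hEq => ?_
        obtain ⟨x, hx, hxne⟩ := hTns c
        exact hxne ((hmemY x).mp (hEq ▸ hx)).2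
      have hfdY : FiniteDimensional K Y := Submodule.finiteDimensional_of_le hYX
      have hlt : Module.finrank K Y < n := hn ▸ Submodule.finrank_lt_finrank_of_lt hYlt
      obtain ⟨v, hv, hv0, hv'⟩ := ih _ hlt Y hfdY rfl hYne (by
        intro S hS x hx
        obtain ⟨hxX, hxT⟩ := (hmemY x).mp hx
        refine (hmemY _).mpr ⟨hstab S hS x hxX, ?_⟩
        have := congrArg (fun φ : Module.End K V => φ x) (hcomm T hT S hS).eq
        simp only [Module.End.mul_apply] at this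
        rw [this, hxT, map_smul])
      exact ⟨v, hYX hv, hv0, hv'⟩

variable {M' : ℕ}

theorem exists_normalizedEigenform_of_ne_zero [NeZero M'] (P : ℕ → Prop) (a : ℕ → ℂ)
    (f : CuspForm (Gamma0 M') 2) (hf : f ≠ 0)
    (hT : ∀ (ℓ : ℕ) (hℓ : ℓ.Prime) (hℓN : ¬ ℓ ∣ M'), P ℓ →
      CuspForm.heckeTLin 2 hℓ hℓN f = a ℓ • f) :
    ∃ h : CuspForm (Gamma0 M') 2, h.IsNormalizedEigenform ∧
      ∀ ℓ : ℕ, ℓ.Prime → ¬ ℓ ∣ M' → P ℓ → qCoeff h ℓ = a ℓ := by
  have hfd : FiniteDimensional ℂ (CuspForm (Gamma0 M') 2) :=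
    Fermat.Agent.S23.finiteDimensional_cuspForm M' 2
  let X : Submodule ℂ (CuspForm (Gamma0 M') 2) :=
    { carrier := {g | ∀ (ℓ : ℕ) (hℓ : ℓ.Prime) (hℓN : ¬ ℓ ∣ M'), P ℓ →
        CuspForm.heckeTLin 2 hℓ hℓN g = a ℓ • g}
      add_mem' := by
        intro g g' hg hg' ℓ hℓ hℓN hP
        rw [map_add, hg ℓ hℓ hℓN hP, hg' ℓ hℓ hℓN hP, smul_add]
      zero_mem' := by
        intro ℓ hℓ hℓN _
        rw [map_zero, smul_zero]
      smul_mem' := by
        intro c g hg ℓ hℓ hℓN hP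
        rw [map_smul, hg ℓ hℓ hℓN hP, smul_comm] }
  have hXne : X ≠ ⊥ := X.ne_bot_iff.mpr ⟨f, hT, hf⟩
  obtain ⟨v, hvX, hv0, hv⟩ := exists_common_eigenvector (CuspForm.heckeGenerators M' 2 ∅)
    (fun S hS T hT => CuspForm.commute_of_mem_heckeGenerators hS hT) _ X inferInstance rfl hXne (by
      intro T hT' x hx ℓ hℓ hℓN hP
      have hc := CuspForm.commute_of_mem_heckeGenerators
        (CuspForm.heckeTLin_mem_heckeGenerators (k := 2) hℓ hℓN (Set.notMem_empty ℓ)) hT'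
      have := congrArg (fun φ : Module.End ℂ (CuspForm (Gamma0 M') 2) => φ x) hc.eq
      simp only [Module.End.mul_apply] at this
      rw [this, hx ℓ hℓ hℓN hP, map_smul])
  have halg : ∀ t ∈ CuspForm.heckeAlgebra M' 2 ∅, ∃ c : ℂ, t v = c • v := by
    intro t ht
    induction ht using Algebra.adjoin_induction with
    | mem x hx => exact hv x hx
    | algebraMap r => exact ⟨(r : ℂ), by simp [Int.cast_smul_eq_zsmul]⟩
    | add x y _ _ hx hy =>
      obtain ⟨c, hc⟩ := hx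
      obtain ⟨c', hc'⟩ := hy
      exact ⟨c + c', by rw [LinearMap.add_apply, hc, hc', add_smul]⟩
    | mul x y _ _ hx hy =>
      obtain ⟨c, hc⟩ := hx
      obtain ⟨c', hc'⟩ := hy
      exact ⟨c' * c, by rw [Module.End.mul_apply, hc', map_smul, hc, smul_smul]⟩
  have ha1 : qCoeff v 1 ≠ 0 := by
    intro h0
    apply hv0
    apply eq_zero_of_forall_qc_one
    intro t ht
    obtain ⟨c, hc⟩ := halg t ht
    rw [hc, qc_smul, h0, mul_zero]
  refine ⟨(qCoeff v 1)⁻¹ • v, ?_, ?_⟩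
  · apply isNormalizedEigenform_of_eigen
    · rw [qc_smul, inv_mul_cancel₀ ha1]
    · intro ℓ hℓ hℓN
      obtain ⟨c, hc⟩ := hv _ (CuspForm.heckeTLin_mem_heckeGenerators (k := 2) hℓ hℓN
        (Set.notMem_empty ℓ))
      exact ⟨c, by rw [map_smul, hc, smul_comm]⟩
    · intro r hr hrN
      obtain ⟨c, hc⟩ := hv _ (CuspForm.heckeULin_mem_heckeGenerators (k := 2) hr hrN
        (Set.notMem_empty r))
      exact ⟨c, by rw [map_smul, hc, smul_comm]⟩
  · intro ℓ hℓ hℓN hP
    apply qc_eq_of_heckeT_eq _ (by rw [qc_smul, inv_mul_cancel₀ ha1]) hℓ hℓN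
    rw [map_smul, hvX ℓ hℓ hℓN hP, smul_comm]

end Fermat.Agent.TOR.NF
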