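import Fermat.Agent.TOR.NF.Trace
import Fermat.Agent.TOR.NF.Comm
import Fermat.Agent.TOR.NF.Common
import Fermat.Prelude.Def_CuspForm_Newforms
import Fermat.Prelude.Thm_ModularFormClass_heckeT_heckeU_comm

/-!
# TOR / NF : newforms at a prime `q ‖ M` : `a_q ^ 2 = 1` and `g ∣ w_q = - a_q g`
-/

set_option autoImplicit false

open CongruenceSubgroup ModularFormClass UpperHalfPlane Matrix.SpecialLinearGroup
open scoped MatrixGroups ModularForm
open Fermat.Agent.S49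

namespace Fermat.Agent.TOR.NF

variable {q M' : ℕ}

theorem isCusp_Gamma0_of_isCusp_Gamma0 {N N' : ℕ} [NeZero N] [NeZero N'] {c : OnePoint ℝ}
    (hc : IsCusp c (Subgroup.map (mapGL ℝ) (Gamma0 N))) :
    IsCusp c (Subgroup.map (mapGL ℝ) (Gamma0 N')) := by
  rw [Subgroup.IsArithmetic.isCusp_iff_isCusp_SL2Z] at hc ⊢
  exact hc

/-- The Atkin–Lehner operator on cusp forms. -/
noncomputable def wqForm [NeZero (q * M')] (hq : 0 < q) {a b c d : ℤ}
    (h : (q : ℤ) * a * d - M' * b * c = 1) (f : CuspForm (Gamma0 (q * M')) 2) :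
    CuspForm (Gamma0 (q * M')) 2 where
  toFun := ⇑f ∣[(2 : ℤ)] glZ (alMat q M' a b c d) (alMat_det_pos hq M' h)
  slash_action_eq' := ((inv_cuspForm f).slash_alMat hq h).forall
  holo' := (CuspFormClass.holo f).slash 2 _
  zero_at_cusps' := fun hc =>
    P2MW.S_CuspFormClass_isZeroAt_heckeU.ModularForm.S06W2.isZeroAt_slash_ratCast f
      (glQ (alMat q M' a b c d) (alMat_det_pos hq M' h)) hc

theorem coe_wqForm [NeZero (q * M')] (hq : 0 < q) {a b c d : ℤ}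
    (h : (q : ℤ) * a * d - M' * b * c = 1) (f : CuspForm (Gamma0 (q * M')) 2) :
    ⇑(wqForm hq h f) = ⇑f ∣[(2 : ℤ)] glZ (alMat q M' a b c d) (alMat_det_pos hq M' h) := rfl

/-- The trace to level `M'` on cusp forms. -/
noncomputable def trForm [NeZero (q * M')] [NeZero M'] (hq : q.Prime) (hqM' : ¬ q ∣ M')
    {a b c d : ℤ} (h : (q : ℤ) * a * d - M' * b * c = 1) (f : CuspForm (Gamma0 (q * M')) 2) :
    CuspForm (Gamma0 M') 2 where
  toFun := trFun hq.pos M' h ⇑f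
  slash_action_eq' := ((inv_cuspForm f).trFun hq (NeZero.ne M') hqM' h).forall
  holo' := (CuspFormClass.holo f).add
    (ModularForm.mdifferentiable_heckeU (CuspFormClass.holo (wqForm hq.pos h f)) 2 q)
  zero_at_cusps' := fun hc =>
    (CuspFormClass.zero_at_cusps f (isCusp_Gamma0_of_isCusp_Gamma0 hc)).add
      (CuspFormClass.isZeroAt_heckeU (wqForm hq.pos h f) q (isCusp_Gamma0_of_isCusp_Gamma0 hc))

theorem coe_trForm [NeZero (q * M')] [NeZero M'] (hq : q.Prime) (hqM' : ¬ q ∣ M')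
    {a b c d : ℤ} (h : (q : ℤ) * a * d - M' * b * c = 1) (f : CuspForm (Gamma0 (q * M')) 2) :
    ⇑(trForm hq hqM' h f) = trFun hq.pos M' h ⇑f := rfl

theorem smul_slash_glZ (A : Matrix (Fin 2) (Fin 2) ℤ) (hA : 0 < A.det) (c : ℂ) (f : ℍ → ℂ) :
    (c • f) ∣[(2 : ℤ)] glZ A hA = c • (f ∣[(2 : ℤ)] glZ A hA) := by
  rw [ModularForm.smul_slash, σ_glZ, ContinuousAlgEquiv.refl_apply]

theorem trFun_smul (hq : 0 < q) {a b c d : ℤ} (h : (q : ℤ) * a * d - M' * b * c = 1) (z : ℂ)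
    (f : ℍ → ℂ) : trFun hq M' h (z • f) = z • trFun hq M' h f := by
  rw [trFun, trFun, smul_slash_glZ, ModularForm.heckeU_smul, smul_add]

/-- `T_ℓ` commutes with the trace. -/
theorem heckeT_trFun [NeZero (q * M')] (hq : q.Prime) {ℓ : ℕ} (hℓ : ℓ.Prime) (hℓN : ¬ ℓ ∣ q * M')
    {a b c d : ℤ} (h : (q : ℤ) * a * d - M' * b * c = 1) (f : CuspForm (Gamma0 (q * M')) 2) :
    ModularForm.heckeT 2 ℓ (trFun hq.pos M' h ⇑f) =
      trFun hq.pos M' h (ModularForm.heckeT 2 ℓ ⇑f) := by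
  have hℓq : ¬ ℓ ∣ q := fun h' => hℓN (h'.mul_right _)
  have hcop : ℓ.Coprime q := (Nat.Prime.coprime_iff_not_dvd hℓ).mpr hℓq
  rw [trFun, trFun, ModularForm.heckeT_add, ← coe_wqForm hq.pos h f,
    ModularFormClass.heckeT_heckeU_comm (wqForm hq.pos h f) (one_mem_strictPeriods_Gamma0 _) hcop,
    coe_wqForm, heckeT_slash_alMat hq.pos hℓ hℓN (inv_cuspForm f) h]

/-- The trace of a form with the good eigenvalues of a newform vanishes. -/
theorem trFun_eq_zero_of_isNewform [NeZero (q * M')] (hq : q.Prime) (hqM' : ¬ q ∣ M')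
    {g : CuspForm (Gamma0 (q * M')) 2} (hg : g.IsNewform)
    {a b c d : ℤ} (h : (q : ℤ) * a * d - M' * b * c = 1) (f : CuspForm (Gamma0 (q * M')) 2)
    (hf : ∀ ℓ : ℕ, ℓ.Prime → ¬ ℓ ∣ q * M' → ModularForm.heckeT 2 ℓ ⇑f = qCoeff g ℓ • ⇑f) :
    trFun hq.pos M' h ⇑f = 0 := by
  have hM' : M' ≠ 0 := fun h0 => NeZero.ne (q * M') (by rw [h0, mul_zero])
  have : NeZero M' := ⟨hM'⟩
  by_contra hne
  have hne' : trForm hq hqM' h f ≠ 0 := by
    intro h0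
    apply hne
    rw [← coe_trForm hq hqM' h f, h0]
    rfl
  obtain ⟨e, he, he'⟩ := exists_normalizedEigenform_of_ne_zero (fun ℓ => ¬ ℓ ∣ q * M')
    (fun ℓ => qCoeff g ℓ) (trForm hq hqM' h f) hne' (by
      intro ℓ hℓ hℓM' hℓN
      apply DFunLike.coe_injective
      rw [CuspForm.coe_heckeTLin_apply, coe_trForm, heckeT_trFun hq hℓ hℓN h f, hf ℓ hℓ hℓN,
        trFun_smul]
      rfl)
  refine hg.2 M' (Dvd.intro_left q rfl) ?_ ⟨e, he, fun ℓ hℓ hℓN =>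
    he' ℓ hℓ (fun h' => hℓN (h'.mul_left _)) hℓN⟩
  intro hEq
  have h2 := hq.two_le
  have : 1 * M' < q * M' := Nat.mul_lt_mul_of_pos_right (by omega) (Nat.pos_of_ne_zero hM')
  omega

/-- **Main theorem of [T3]**, level written as `q * M'`. -/
theorem newform_main_aux [NeZero (q * M')] (hq : q.Prime) (hqM' : ¬ q ∣ M')
    {g : CuspForm (Gamma0 (q * M')) 2} (hg : g.IsNewform)
    {a b c d : ℤ} (h : (q : ℤ) * a * d - M' * b * c = 1) :
    qCoeff g q ^ 2 = 1 ∧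
      ⇑g ∣[(2 : ℤ)] glZ (alMat q M' a b c d) (alMat_det_pos hq.pos M' h) = (-qCoeff g q) • ⇑g := by
  have hT : ∀ ℓ : ℕ, ℓ.Prime → ¬ ℓ ∣ q * M' → ModularForm.heckeT 2 ℓ ⇑g = qCoeff g ℓ • ⇑g := by
    intro ℓ hℓ hℓN
    have := congrArg (fun F : CuspForm (Gamma0 (q * M')) 2 => (⇑F : ℍ → ℂ))
      (heckeTLin_eq_smul hg.1 hℓ hℓN)
    exact this
  have hU : ModularForm.heckeU 2 q ⇑g = qCoeff g q • ⇑g := by
    have := congrArg (fun F : CuspForm (Gamma0 (q * M')) 2 => (⇑F : ℍ → ℂ))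
      (heckeULin_eq_smul hg.1 hq (Dvd.intro M' rfl))
    exact this
  have h1 := trFun_eq_zero_of_isNewform hq hqM' hg h g hT
  have h2 := trFun_eq_zero_of_isNewform hq hqM' hg h (wqForm hq.pos h g) (by
    intro ℓ hℓ hℓN
    rw [coe_wqForm, heckeT_slash_alMat hq.pos hℓ hℓN (inv_cuspForm g) h, hT ℓ hℓ hℓN,
      smul_slash_glZ])
  rw [trFun, coe_wqForm, slash_alMat_alMat hq.pos (inv_cuspForm g) h h, hU] at h2
  have hW : ⇑g ∣[(2 : ℤ)] glZ (alMat q M' a b c d) (alMat_det_pos hq.pos M' h) =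
      (-qCoeff g q) • ⇑g := by
    rw [_root_.neg_smul]
    exact eq_neg_of_add_eq_zero_left h2
  refine ⟨?_, hW⟩
  rw [trFun, hW, ModularForm.heckeU_smul, hU, smul_smul] at h1
  have hg0 : (⇑g : ℍ → ℂ) ≠ 0 := by
    intro h0
    exact hg.ne_zero (DFunLike.coe_injective h0)
  obtain ⟨τ, hτ⟩ := Function.ne_iff.mp hg0
  have h3 := congrFun h1 τ
  simp only [Pi.add_apply, Pi.smul_apply, smul_eq_mul, Pi.zero_apply] at h3 hτ
  have h4 : (1 - qCoeff g q ^ 2) * g τ = 0 := by linear_combination h3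
  rcases mul_eq_zero.mp h4 with h5 | h5
  · linear_combination -h5
  · exact absurd h5 hτ

/-- `W` is an Atkin–Lehner matrix at `q` for the level `M`. -/
structure IsAL (M q : ℕ) (W : Matrix (Fin 2) (Fin 2) ℤ) : Prop where
  dvd00 : (q : ℤ) ∣ W 0 0
  dvd11 : (q : ℤ) ∣ W 1 1
  dvd10 : (M : ℤ) ∣ W 1 0
  det_eq : W.det = q

theorem IsAL.of_dvd {M N q : ℕ} (hMN : M ∣ N) {W : Matrix (Fin 2) (Fin 2) ℤ} (h : IsAL N q W) :
    IsAL M q W :=
  ⟨h.dvd00, h.dvd11, (Int.natCast_dvd_natCast.mpr hMN).trans h.dvd10, h.det_eq⟩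

theorem IsAL.exists_eq_alMat (hq : 0 < q) {W : Matrix (Fin 2) (Fin 2) ℤ} (h : IsAL (q * M') q W) :
    ∃ a b c d : ℤ, (q : ℤ) * a * d - M' * b * c = 1 ∧ W = alMat q M' a b c d := by
  obtain ⟨a, ha⟩ := h.dvd00
  obtain ⟨d, hd⟩ := h.dvd11
  obtain ⟨c, hc⟩ := h.dvd10
  have hqZ : (q : ℤ) ≠ 0 := by exact_mod_cast hq.ne'
  refine ⟨a, W 0 1, c, d, ?_, ?_⟩
  · have hdet := h.det_eq
    rw [Matrix.det_fin_two, ha, hd, hc] at hdet
    apply mul_left_cancel₀ hqZ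
    push_cast at hdet
    linear_combination hdet
  · ext i j
    fin_cases i <;> fin_cases j <;>
      simp only [alMat, Matrix.of_apply, Fin.zero_eta, Fin.mk_one, Fin.isValue, Matrix.cons_val',
        Matrix.cons_val_zero, Matrix.cons_val_one, Matrix.cons_val_fin_one]
    · exact ha
    · rw [hc]; push_cast; ring
    · exact hd

theorem exists_isAL {M q : ℕ} (hq : q.Prime) (hqM : q ∣ M) (hq2 : ¬ q ^ 2 ∣ M) :
    ∃ W : Matrix (Fin 2) (Fin 2) ℤ, IsAL M q W := by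
  obtain ⟨M', rfl⟩ := hqM
  have hqM' : ¬ q ∣ M' := fun h => hq2 (by rw [pow_two]; exact Nat.mul_dvd_mul_left q h)
  have hcop : IsCoprime (q : ℤ) (M' : ℤ) := by
    rw [Nat.isCoprime_iff_coprime]
    exact (Nat.Prime.coprime_iff_not_dvd hq).mpr hqM'
  obtain ⟨u, v, huv⟩ := hcop
  have h : (q : ℤ) * u * 1 - M' * (-v) * 1 = 1 := by linear_combination huv
  refine ⟨alMat q M' u (-v) 1 1, ⟨u, by simp [alMat]⟩, ⟨1, by simp [alMat]⟩,
    ⟨1, by simp [alMat]⟩, alMat_det q M' h⟩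

section Export

variable {M : ℕ} [NeZero M] {g : CuspForm (Gamma0 M) 2}

omit [NeZero M] in
/-- function level form of `T_ℓ g = a_ℓ g`. -/
theorem heckeT_coe_eq_smul (hg : g.IsNormalizedEigenform) {ℓ : ℕ} (hℓ : ℓ.Prime)
    (hℓM : ¬ ℓ ∣ M) : ModularForm.heckeT 2 ℓ ⇑g = qCoeff g ℓ • ⇑g :=
  congrArg (fun F : CuspForm (Gamma0 M) 2 => (⇑F : ℍ → ℂ)) (heckeTLin_eq_smul hg hℓ hℓM)

/-- function level form of `U_q g = a_q g`. -/
theorem heckeU_coe_eq_smul (hg : g.IsNormalizedEigenform) {q : ℕ} (hq : q.Prime)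
    (hqM : q ∣ M) : ModularForm.heckeU 2 q ⇑g = qCoeff g q • ⇑g :=
  congrArg (fun F : CuspForm (Gamma0 M) 2 => (⇑F : ℍ → ℂ)) (heckeULin_eq_smul hg hq hqM)

/-- **[T3]** a newform of level `M` has `a_q ^ 2 = 1` at the primes `q ‖ M`. -/
theorem newform_aq_sq (hg : g.IsNewform) {q : ℕ} (hq : q.Prime) (hqM : q ∣ M)
    (hq2 : ¬ q ^ 2 ∣ M) : qCoeff g q ^ 2 = 1 := by
  obtain ⟨M', rfl⟩ := hqM
  have hqM' : ¬ q ∣ M' := fun h => hq2 (by rw [pow_two]; exact Nat.mul_dvd_mul_left q h)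
  obtain ⟨W, hW⟩ := exists_isAL hq (Dvd.intro M' rfl) hq2
  obtain ⟨a, b, c, d, h, -⟩ := hW.exists_eq_alMat hq.pos
  exact (newform_main_aux hq hqM' hg h).1

theorem newform_aq_eq (hg : g.IsNewform) {q : ℕ} (hq : q.Prime) (hqM : q ∣ M)
    (hq2 : ¬ q ^ 2 ∣ M) : qCoeff g q = 1 ∨ qCoeff g q = -1 :=
  sq_eq_one_iff.mp (newform_aq_sq hg hq hqM hq2)

/-- **[T3]** a newform of level `M` is an eigenvector of the Atkin–Lehner operator at `q ‖ M`, with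
eigenvalue `- a_q`.  `W` may be an Atkin–Lehner matrix for any multiple `N` of `M`
(use `IsAL.of_dvd`). -/
theorem newform_slash_AL (hg : g.IsNewform) {q : ℕ} (hq : q.Prime) (hqM : q ∣ M)
    (hq2 : ¬ q ^ 2 ∣ M) {W : Matrix (Fin 2) (Fin 2) ℤ} (hW : IsAL M q W) (hpos : 0 < W.det) :
    ⇑g ∣[(2 : ℤ)] glZ W hpos = (-qCoeff g q) • ⇑g := by
  obtain ⟨M', rfl⟩ := hqM
  have hqM' : ¬ q ∣ M' := fun h => hq2 (by rw [pow_two]; exact Nat.mul_dvd_mul_left q h)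
  obtain ⟨a, b, c, d, h, rfl⟩ := hW.exists_eq_alMat hq.pos
  exact (newform_main_aux hq hqM' hg h).2

end Export

end Fermat.Agent.TOR.NF
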