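import Fermat.Agent.S49.Eigen

/-!
# TOR / NF : a normalised eigenform (prelude definition by `q`-coefficients) is an eigenvector of
the Hecke operators
-/

set_option autoImplicit false

open CongruenceSubgroup ModularFormClass UpperHalfPlane
open Fermat.Agent.S49

namespace Fermat.Agent.TOR.NF

variable {N : ℕ}

theorem qc_sub (f g : CuspForm (Gamma0 N) 2) (n : ℕ) :
    qCoeff (⇑(f - g)) n = qCoeff f n - qCoeff g n := by
  have h := qc_add f ((-1 : ℂ) • g) n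
  rw [qc_smul] at h
  rw [show f - g = f + (-1 : ℂ) • g by rw [neg_one_smul, sub_eq_add_neg], h]
  ring

theorem qc_ext' {f g : CuspForm (Gamma0 N) 2} (h : ∀ n, qCoeff f n = qCoeff g n) : f = g := by
  rw [← sub_eq_zero]
  apply qc_ext
  intro n
  rw [qc_sub, h n, sub_self]

theorem heckeTLin_eq_smul {g : CuspForm (Gamma0 N) 2} (hg : g.IsNormalizedEigenform)
    {ℓ : ℕ} (hℓ : ℓ.Prime) (hℓN : ¬ ℓ ∣ N) :
    CuspForm.heckeTLin 2 hℓ hℓN g = qCoeff g ℓ • g := by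
  apply qc_ext'
  intro n
  rw [qc_heckeT, qc_smul]
  rcases Nat.eq_zero_or_pos n with rfl | hn
  · simp [qc_at_zero]
  obtain ⟨r, m, hm, rfl⟩ := Nat.exists_eq_pow_mul_and_not_dvd hn.ne' ℓ hℓ.ne_one
  have hcop : ∀ s : ℕ, (ℓ ^ s).Coprime m :=
    fun s => Nat.Coprime.pow_left s ((Nat.Prime.coprime_iff_not_dvd hℓ).mpr hm)
  cases r with
  | zero =>
    rw [pow_zero, one_mul, if_neg hm, add_zero, mul_comm m ℓ]
    have := hg.qCoeff_mul_of_coprime ℓ m (by simpa using hcop 1)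
    rw [this]
  | succ r =>
    have h1 : ℓ ∣ ℓ ^ (r + 1) * m := Dvd.dvd.mul_right (dvd_pow_self ℓ (Nat.succ_ne_zero r)) m
    have h2 : ℓ ^ (r + 1) * m / ℓ = ℓ ^ r * m := by
      rw [pow_succ, mul_comm (ℓ ^ r) ℓ, mul_assoc, Nat.mul_div_cancel_left _ hℓ.pos]
    have h3 : ℓ ^ (r + 1) * m * ℓ = ℓ ^ (r + 2) * m := by ring
    rw [if_pos h1, h2, h3, hg.qCoeff_mul_of_coprime _ _ (hcop _),
      hg.qCoeff_mul_of_coprime _ _ (hcop _), hg.qCoeff_mul_of_coprime _ _ (hcop _),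
      hg.qCoeff_prime_pow_of_not_dvd ℓ r hℓ hℓN]
    norm_num
    ring

theorem heckeULin_eq_smul [NeZero N] {g : CuspForm (Gamma0 N) 2} (hg : g.IsNormalizedEigenform)
    {q : ℕ} (hq : q.Prime) (hqN : q ∣ N) :
    CuspForm.heckeULin 2 hqN g = qCoeff g q • g := by
  apply qc_ext'
  intro n
  rw [qc_heckeU hq.ne_zero, qc_smul]
  rcases Nat.eq_zero_or_pos n with rfl | hn
  · simp [qc_at_zero]
  obtain ⟨r, m, hm, rfl⟩ := Nat.exists_eq_pow_mul_and_not_dvd hn.ne' q hq.ne_one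
  have hcop : ∀ s : ℕ, (q ^ s).Coprime m :=
    fun s => Nat.Coprime.pow_left s ((Nat.Prime.coprime_iff_not_dvd hq).mpr hm)
  have h3 : q ^ r * m * q = q ^ (r + 1) * m := by ring
  rw [h3, hg.qCoeff_mul_of_coprime _ _ (hcop _), hg.qCoeff_mul_of_coprime _ _ (hcop _)]
  cases r with
  | zero => simp [hg.qCoeff_one]
  | succ r =>
    rw [hg.qCoeff_prime_pow_of_dvd q r hq hqN]
    ring

end Fermat.Agent.TOR.NF
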