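import Fermat.Agent.TOR.NF.Mat

/-!
# TOR / NF : Atkin–Lehner matrices at `q` for the level `q * M'`
-/

set_option autoImplicit false

open Matrix.SpecialLinearGroup UpperHalfPlane
open scoped MatrixGroups ModularForm

namespace Fermat.Agent.TOR.NF

/-- an integral matrix of determinant one as an element of `SL(2, ℤ)`. -/
def slOf (A : Matrix (Fin 2) (Fin 2) ℤ) (h : A.det = 1) : SL(2, ℤ) := ⟨A, h⟩

theorem slOf_val (A : Matrix (Fin 2) (Fin 2) ℤ) (h : A.det = 1) : (slOf A h).1 = A := rfl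

theorem slOf_apply (A : Matrix (Fin 2) (Fin 2) ℤ) (h : A.det = 1) (i j : Fin 2) :
    (slOf A h) i j = A i j := rfl

theorem mapGL_slOf (A : Matrix (Fin 2) (Fin 2) ℤ) (h : A.det = 1) (hA : 0 < A.det) :
    mapGL ℝ (slOf A h) = glZ A hA := by
  rw [mapGL_eq_glZ]
  rfl

theorem slOf_mem_Gamma0 {N : ℕ} (A : Matrix (Fin 2) (Fin 2) ℤ) (h : A.det = 1) :
    slOf A h ∈ CongruenceSubgroup.Gamma0 N ↔ (N : ℤ) ∣ A 1 0 := by
  rw [CongruenceSubgroup.Gamma0_mem, ZMod.intCast_zmod_eq_zero_iff_dvd]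
  rfl

/-- `f` is invariant (weight `2`) under `Γ₀(N)`, in terms of integral matrices. -/
def Inv (N : ℕ) (f : ℍ → ℂ) : Prop :=
  ∀ (A : Matrix (Fin 2) (Fin 2) ℤ) (hA : 0 < A.det), A.det = 1 → (N : ℤ) ∣ A 1 0 →
    f ∣[(2 : ℤ)] glZ A hA = f

theorem Inv.of_forall {N : ℕ} {f : ℍ → ℂ}
    (h : ∀ γ ∈ Subgroup.map (mapGL ℝ) (CongruenceSubgroup.Gamma0 N), f ∣[(2 : ℤ)] γ = f) :
    Inv N f := by
  intro A hA hdet hN
  apply h
  exact ⟨slOf A hdet, (slOf_mem_Gamma0 A hdet).mpr hN, mapGL_slOf A hdet hA⟩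

theorem Inv.forall {N : ℕ} {f : ℍ → ℂ} (h : Inv N f) :
    ∀ γ ∈ Subgroup.map (mapGL ℝ) (CongruenceSubgroup.Gamma0 N), f ∣[(2 : ℤ)] γ = f := by
  rintro _ ⟨γ, hγ, rfl⟩
  rw [mapGL_eq_glZ]
  apply h _ _ γ.2
  rw [SetLike.mem_coe, CongruenceSubgroup.Gamma0_mem] at hγ
  exact (ZMod.intCast_zmod_eq_zero_iff_dvd _ _).mp hγ

theorem Inv.mono {N N' : ℕ} (hN : N ∣ N') {f : ℍ → ℂ} (h : Inv N f) : Inv N' f :=
  fun A hA hdet hd => h A hA hdet ((Int.natCast_dvd_natCast.mpr hN).trans hd)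

theorem Inv.add {N : ℕ} {f g : ℍ → ℂ} (hf : Inv N f) (hg : Inv N g) : Inv N (f + g) := by
  intro A hA hdet hd
  rw [SlashAction.add_slash, hf A hA hdet hd, hg A hA hdet hd]

theorem inv_cuspForm {N : ℕ} (f : CuspForm (CongruenceSubgroup.Gamma0 N) 2) : Inv N ⇑f :=
  Inv.of_forall fun γ hγ => SlashInvariantFormClass.slash_action_eq f γ hγ

/-- The Atkin–Lehner matrices at `q` of level `q * M'`. -/
def alMat (q M' : ℕ) (a b c d : ℤ) : Matrix (Fin 2) (Fin 2) ℤ :=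
  !![(q : ℤ) * a, b; (q : ℤ) * M' * c, (q : ℤ) * d]

theorem alMat_det (q M' : ℕ) {a b c d : ℤ} (h : (q : ℤ) * a * d - M' * b * c = 1) :
    (alMat q M' a b c d).det = q := by
  rw [alMat, Matrix.det_fin_two_of]
  linear_combination (q : ℤ) * h

theorem alMat_det_pos {q : ℕ} (hq : 0 < q) (M' : ℕ) {a b c d : ℤ}
    (h : (q : ℤ) * a * d - M' * b * c = 1) : 0 < (alMat q M' a b c d).det := by
  rw [alMat_det q M' h]
  exact_mod_cast hq

variable {q M' : ℕ}

/-- `f ∣ W` does not depend on the Atkin–Lehner matrix `W`. -/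
theorem slash_alMat_eq (hq : 0 < q) {f : ℍ → ℂ} (hf : Inv (q * M') f) {a b c d a₁ b₁ c₁ d₁ : ℤ}
    (h : (q : ℤ) * a * d - M' * b * c = 1) (h₁ : (q : ℤ) * a₁ * d₁ - M' * b₁ * c₁ = 1) :
    f ∣[(2 : ℤ)] glZ (alMat q M' a₁ b₁ c₁ d₁) (alMat_det_pos hq M' h₁) =
      f ∣[(2 : ℤ)] glZ (alMat q M' a b c d) (alMat_det_pos hq M' h) := by
  set G : Matrix (Fin 2) (Fin 2) ℤ :=
    !![(q : ℤ) * a₁ * d - M' * b₁ * c, -a₁ * b + b₁ * a;
       (q : ℤ) * M' * (c₁ * d - d₁ * c), -M' * c₁ * b + (q : ℤ) * d₁ * a] with hG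
  have hGdet : G.det = 1 := by
    rw [hG, Matrix.det_fin_two_of]
    linear_combination ((q : ℤ) * a₁ * d₁ - M' * b₁ * c₁) * h + h₁
  have hGpos : 0 < G.det := by rw [hGdet]; exact one_pos
  have hmul : G * alMat q M' a b c d = alMat q M' a₁ b₁ c₁ d₁ := by
    ext i j
    fin_cases i <;> fin_cases j <;>
      simp only [hG, alMat, Matrix.mul_apply, Fin.sum_univ_two, Matrix.of_apply, Fin.zero_eta,
        Fin.mk_one, Fin.isValue, Matrix.cons_val', Matrix.cons_val_zero, Matrix.cons_val_one,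
        Matrix.cons_val_fin_one]
    · linear_combination (q : ℤ) * a₁ * h
    · linear_combination b₁ * h
    · linear_combination (q : ℤ) * M' * c₁ * h
    · linear_combination (q : ℤ) * d₁ * h
  rw [← slash_glZ_mul 2 hGpos (alMat_det_pos hq M' h) (alMat_det_pos hq M' h₁) hmul,
    hf G hGpos hGdet (by rw [hG]; simp only [Matrix.of_apply, Matrix.cons_val_zero,
      Matrix.cons_val_one, Matrix.cons_val']; exact ⟨c₁ * d - d₁ * c, by push_cast; ring⟩)]

/-- `f ∣ W` is again `Γ₀(q M')`-invariant. -/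
theorem Inv.slash_alMat (hq : 0 < q) {f : ℍ → ℂ} (hf : Inv (q * M') f) {a b c d : ℤ}
    (h : (q : ℤ) * a * d - M' * b * c = 1) :
    Inv (q * M') (f ∣[(2 : ℤ)] glZ (alMat q M' a b c d) (alMat_det_pos hq M' h)) := by
  intro A hA hdet hd
  obtain ⟨g, hg⟩ := hd
  have hdet' : A 0 0 * A 1 1 - A 0 1 * A 1 0 = 1 := by rw [← hdet, Matrix.det_fin_two]
  have h₁ : (q : ℤ) * (a * A 0 0 + b * M' * g) * (M' * c * A 0 1 + d * A 1 1)
      - M' * ((q : ℤ) * a * A 0 1 + b * A 1 1) * (c * A 0 0 + (q : ℤ) * d * g) = 1 := by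
    rw [hg] at hdet'
    push_cast at hdet'
    linear_combination ((q : ℤ) * a * d - M' * b * c) * hdet' + h
  have hmul : alMat q M' a b c d * A = alMat q M' (a * A 0 0 + b * M' * g)
      ((q : ℤ) * a * A 0 1 + b * A 1 1) (c * A 0 0 + (q : ℤ) * d * g)
      (M' * c * A 0 1 + d * A 1 1) := by
    ext i j
    fin_cases i <;> fin_cases j <;>
      simp only [alMat, Matrix.mul_apply, Fin.sum_univ_two, Matrix.of_apply, Fin.zero_eta,
        Fin.mk_one, Fin.isValue, Matrix.cons_val', Matrix.cons_val_zero, Matrix.cons_val_one,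
        Matrix.cons_val_fin_one] <;> (try rw [hg]) <;> push_cast <;> ring
  rw [slash_glZ_mul 2 (alMat_det_pos hq M' h) hA (alMat_det_pos hq M' h₁) hmul,
    slash_alMat_eq hq hf h h₁]

/-- Two Atkin–Lehner operators compose to the identity (weight `2`). -/
theorem slash_alMat_alMat (hq : 0 < q) {f : ℍ → ℂ} (hf : Inv (q * M') f) {a b c d a₁ b₁ c₁ d₁ : ℤ}
    (h : (q : ℤ) * a * d - M' * b * c = 1) (h₁ : (q : ℤ) * a₁ * d₁ - M' * b₁ * c₁ = 1) :
    (f ∣[(2 : ℤ)] glZ (alMat q M' a b c d) (alMat_det_pos hq M' h)) ∣[(2 : ℤ)]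
      glZ (alMat q M' a₁ b₁ c₁ d₁) (alMat_det_pos hq M' h₁) = f := by
  set G : Matrix (Fin 2) (Fin 2) ℤ :=
    !![(q : ℤ) * a * a₁ + M' * b * c₁, a * b₁ + b * d₁;
       (q : ℤ) * M' * (c * a₁ + d * c₁), M' * c * b₁ + (q : ℤ) * d * d₁] with hG
  have hGdet : G.det = 1 := by
    rw [hG, Matrix.det_fin_two_of]
    linear_combination ((q : ℤ) * a₁ * d₁ - M' * b₁ * c₁) * h + h₁
  have hGpos : 0 < G.det := by rw [hGdet]; exact one_pos
  have hqZ : (0 : ℤ) < q := by exact_mod_cast hq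
  have hqG : 0 < ((q : ℤ) • G).det := by
    rw [Matrix.det_smul, hGdet]; simp only [Fintype.card_fin, mul_one]; positivity
  have hmul : alMat q M' a b c d * alMat q M' a₁ b₁ c₁ d₁ = (q : ℤ) • G := by
    ext i j
    fin_cases i <;> fin_cases j <;>
      simp only [hG, alMat, Matrix.mul_apply, Fin.sum_univ_two, Matrix.of_apply, Fin.zero_eta,
        Fin.mk_one, Fin.isValue, Matrix.cons_val', Matrix.cons_val_zero, Matrix.cons_val_one,
        Matrix.cons_val_fin_one, Matrix.smul_apply, smul_eq_mul] <;> ring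
  rw [slash_glZ_mul 2 (alMat_det_pos hq M' h) (alMat_det_pos hq M' h₁) hqG hmul,
    slash_glZ_smul (q : ℤ) hqZ G hGpos hqG,
    hf G hGpos hGdet (by rw [hG]; simp only [Matrix.of_apply, Matrix.cons_val_zero,
      Matrix.cons_val_one, Matrix.cons_val']; exact ⟨c * a₁ + d * c₁, by push_cast; ring⟩)]

/-- The coset representatives of `Γ₀(q M') \ Γ₀(M')` attached to an Atkin–Lehner matrix. -/
def trMat (q M' : ℕ) (a b c d : ℤ) (j : ℤ) : Matrix (Fin 2) (Fin 2) ℤ :=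
  !![a, a * j + b; (M' : ℤ) * c, (M' : ℤ) * c * j + (q : ℤ) * d]

theorem trMat_det (q M' : ℕ) {a b c d : ℤ} (h : (q : ℤ) * a * d - M' * b * c = 1) (j : ℤ) :
    (trMat q M' a b c d j).det = 1 := by
  rw [trMat, Matrix.det_fin_two_of]
  linear_combination h

theorem trMat_det_pos (q M' : ℕ) {a b c d : ℤ} (h : (q : ℤ) * a * d - M' * b * c = 1) (j : ℤ) :
    0 < (trMat q M' a b c d j).det := by
  rw [trMat_det q M' h]; exact one_pos

theorem slash_alMat_heckeMatrix (hq : 0 < q) (f : ℍ → ℂ) {a b c d : ℤ}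
    (h : (q : ℤ) * a * d - M' * b * c = 1) (j : ℕ) :
    (f ∣[(2 : ℤ)] glZ (alMat q M' a b c d) (alMat_det_pos hq M' h)) ∣[(2 : ℤ)]
      ModularForm.heckeMatrix q j = f ∣[(2 : ℤ)] glZ (trMat q M' a b c d j) (trMat_det_pos q M' h j) := by
  have hqZ : (0 : ℤ) < q := by exact_mod_cast hq
  have hβ : 0 < (!![1, (j : ℤ); 0, (q : ℤ)]).det := by
    rw [Matrix.det_fin_two_of]; simpa using hqZ
  have hqG : 0 < ((q : ℤ) • trMat q M' a b c d j).det := by
    rw [Matrix.det_smul, trMat_det q M' h]; simp only [Fintype.card_fin, mul_one]; positivity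
  have hmul : alMat q M' a b c d * !![1, (j : ℤ); 0, (q : ℤ)] = (q : ℤ) • trMat q M' a b c d j := by
    ext i k
    fin_cases i <;> fin_cases k <;>
      simp only [trMat, alMat, Matrix.mul_apply, Fin.sum_univ_two, Matrix.of_apply, Fin.zero_eta,
        Fin.mk_one, Fin.isValue, Matrix.cons_val', Matrix.cons_val_zero, Matrix.cons_val_one,
        Matrix.cons_val_fin_one, Matrix.smul_apply, smul_eq_mul] <;> ring
  rw [heckeMatrix_eq_glZ hq.ne' j hβ, slash_glZ_mul 2 (alMat_det_pos hq M' h) hβ hqG hmul,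
    slash_glZ_smul (q : ℤ) hqZ _ (trMat_det_pos q M' h j) hqG]

end Fermat.Agent.TOR.NF
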