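import Mathlib
import Fermat.Prelude.Def_CuspForm_HeckeAlgebra

/-!
# TOR / NF : integer matrices of positive determinant acting by the weight `2` slash operator
-/

set_option autoImplicit false

open Matrix.SpecialLinearGroup UpperHalfPlane
open scoped MatrixGroups ModularForm

namespace Fermat.Agent.TOR.NF

/-- An integral `2 × 2` matrix of positive determinant, as an element of `GL₂(ℚ)`. -/
noncomputable def glQ (A : Matrix (Fin 2) (Fin 2) ℤ) (h : 0 < A.det) : GL (Fin 2) ℚ :=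
  Matrix.GeneralLinearGroup.mkOfDetNeZero (A.map (Int.castRingHom ℚ)) (by
    have := (Int.castRingHom ℚ).map_det A
    rw [RingHom.mapMatrix_apply] at this
    rw [← this]
    simpa using h.ne')

/-- An integral `2 × 2` matrix of positive determinant, as an element of `GL₂(ℝ)`. -/
noncomputable def glZ (A : Matrix (Fin 2) (Fin 2) ℤ) (h : 0 < A.det) : GL (Fin 2) ℝ :=
  Matrix.GeneralLinearGroup.map (Rat.castHom ℝ) (glQ A h)

theorem glZ_apply (A : Matrix (Fin 2) (Fin 2) ℤ) (h : 0 < A.det) (i j : Fin 2) :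
    (glZ A h : Matrix (Fin 2) (Fin 2) ℝ) i j = (A i j : ℝ) := by
  simp [glZ, glQ, Matrix.GeneralLinearGroup.mkOfDetNeZero]

theorem glZ_val (A : Matrix (Fin 2) (Fin 2) ℤ) (h : 0 < A.det) :
    (glZ A h : Matrix (Fin 2) (Fin 2) ℝ) = A.map (Int.castRingHom ℝ) := by
  ext i j
  rw [glZ_apply]
  simp

theorem glZ_congr {A B : Matrix (Fin 2) (Fin 2) ℤ} (hAB : A = B) (hA : 0 < A.det)
    (hB : 0 < B.det) : glZ A hA = glZ B hB := by
  subst hAB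
  rfl

theorem glZ_mul {A B C : Matrix (Fin 2) (Fin 2) ℤ} (hA : 0 < A.det) (hB : 0 < B.det)
    (hC : 0 < C.det) (h : A * B = C) : glZ A hA * glZ B hB = glZ C hC := by
  apply Units.ext
  rw [Units.val_mul, glZ_val, glZ_val, glZ_val, ← h, Matrix.map_mul]

theorem glZ_det (A : Matrix (Fin 2) (Fin 2) ℤ) (h : 0 < A.det) :
    ((glZ A h).det : ℝ) = (A.det : ℝ) := by
  have := (Int.castRingHom ℝ).map_det A
  rw [RingHom.mapMatrix_apply] at this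
  rw [Matrix.GeneralLinearGroup.val_det_apply, glZ_val, ← this]
  simp

theorem glZ_det_pos (A : Matrix (Fin 2) (Fin 2) ℤ) (h : 0 < A.det) :
    0 < ((glZ A h).det : ℝ) := by
  rw [glZ_det]
  exact_mod_cast h

theorem mapGL_eq_glZ (γ : SL(2, ℤ)) :
    mapGL ℝ γ = glZ γ.1 (by rw [γ.2]; exact one_pos) := by
  apply Units.ext
  ext i j
  rw [glZ_apply]
  simp [mapGL]

theorem heckeMatrix_eq_glZ {p : ℕ} (hp : p ≠ 0) (j : ℕ) (h : 0 < (!![1, (j : ℤ); 0, (p : ℤ)]).det) :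
    ModularForm.heckeMatrix p j = glZ !![1, (j : ℤ); 0, (p : ℤ)] h := by
  apply Units.ext
  ext a b
  rw [glZ_apply, ModularForm.val_heckeMatrix hp]
  fin_cases a <;> fin_cases b <;> simp

theorem heckeDiagMatrix_eq_glZ {p : ℕ} (hp : p ≠ 0) (h : 0 < (!![(p : ℤ), 0; 0, 1]).det) :
    ModularForm.heckeDiagMatrix p = glZ !![(p : ℤ), 0; 0, 1] h := by
  apply Units.ext
  ext a b
  rw [glZ_apply, ModularForm.val_heckeDiagMatrix hp]
  fin_cases a <;> fin_cases b <;> simp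

theorem σ_glZ (A : Matrix (Fin 2) (Fin 2) ℤ) (h : 0 < A.det) :
    UpperHalfPlane.σ (glZ A h) = .refl ℝ ℂ := by
  rw [UpperHalfPlane.σ, if_pos (glZ_det_pos A h)]

theorem coe_glZ_smul (A : Matrix (Fin 2) (Fin 2) ℤ) (h : 0 < A.det) (τ : ℍ) :
    ((glZ A h • τ : ℍ) : ℂ) = ((A 0 0 : ℂ) * τ + (A 0 1 : ℂ)) / ((A 1 0 : ℂ) * τ + (A 1 1 : ℂ)) := by
  rw [UpperHalfPlane.coe_smul_of_det_pos (glZ_det_pos A h)]
  simp [UpperHalfPlane.num, UpperHalfPlane.denom, glZ_apply]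

theorem denom_glZ (A : Matrix (Fin 2) (Fin 2) ℤ) (h : 0 < A.det) (τ : ℍ) :
    UpperHalfPlane.denom (glZ A h) τ = (A 1 0 : ℂ) * τ + (A 1 1 : ℂ) := by
  simp [UpperHalfPlane.denom, glZ_apply]

theorem slash_glZ_apply (k : ℤ) (A : Matrix (Fin 2) (Fin 2) ℤ) (h : 0 < A.det) (f : ℍ → ℂ) (τ : ℍ) :
    (f ∣[k] glZ A h) τ =
      f (glZ A h • τ) * (A.det : ℂ) ^ (k - 1) * ((A 1 0 : ℂ) * τ + (A 1 1 : ℂ)) ^ (-k) := by
  rw [ModularForm.slash_apply, σ_glZ, glZ_det, denom_glZ]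
  simp only [ContinuousAlgEquiv.refl_apply]
  rw [abs_of_pos (by exact_mod_cast h)]
  simp

/-- In weight `2` scalar matrices act trivially. -/
theorem slash_glZ_smul (c : ℤ) (hc : 0 < c) (A : Matrix (Fin 2) (Fin 2) ℤ) (h : 0 < A.det)
    (h' : 0 < (c • A).det) (f : ℍ → ℂ) : f ∣[(2 : ℤ)] glZ (c • A) h' = f ∣[(2 : ℤ)] glZ A h := by
  have hcC : (c : ℂ) ≠ 0 := by exact_mod_cast hc.ne'
  funext τ
  have hpt : glZ (c • A) h' • τ = glZ A h • τ := by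
    apply UpperHalfPlane.ext
    rw [coe_glZ_smul, coe_glZ_smul]
    simp only [Matrix.smul_apply, smul_eq_mul, Int.cast_mul]
    rw [show (c : ℂ) * (A 0 0 : ℂ) * τ + (c : ℂ) * (A 0 1 : ℂ) =
      (c : ℂ) * ((A 0 0 : ℂ) * τ + (A 0 1 : ℂ)) by ring,
      show (c : ℂ) * (A 1 0 : ℂ) * τ + (c : ℂ) * (A 1 1 : ℂ) =
      (c : ℂ) * ((A 1 0 : ℂ) * τ + (A 1 1 : ℂ)) by ring, mul_div_mul_left _ _ hcC]
  rw [slash_glZ_apply, slash_glZ_apply, hpt]
  have hdet : (c • A).det = c ^ 2 * A.det := by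
    rw [Matrix.det_smul]; simp
  rw [hdet]
  simp only [Matrix.smul_apply, smul_eq_mul, Int.cast_mul, Int.cast_pow]
  have h2 : ((c : ℂ) * (A 1 0 : ℂ) * τ + (c : ℂ) * (A 1 1 : ℂ)) ^ (-(2 : ℤ)) =
      (c : ℂ) ^ (-(2 : ℤ)) * ((A 1 0 : ℂ) * τ + (A 1 1 : ℂ)) ^ (-(2 : ℤ)) := by
    rw [← mul_zpow]; congr 1; ring
  rw [h2]
  have : ((c : ℂ) ^ 2 * (A.det : ℂ)) ^ ((2 : ℤ) - 1) * ((c : ℂ) ^ (-(2 : ℤ))) = (A.det : ℂ) ^ ((2 : ℤ) - 1) := by
    norm_num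
    field_simp
  calc _ = f (glZ A h • τ) * (((c : ℂ) ^ 2 * (A.det : ℂ)) ^ ((2 : ℤ) - 1) * ((c : ℂ) ^ (-(2 : ℤ)))) *
        ((A 1 0 : ℂ) * τ + (A 1 1 : ℂ)) ^ (-(2 : ℤ)) := by ring
    _ = _ := by rw [this]

/-- slash by a product of integral matrices. -/
theorem slash_glZ_mul (k : ℤ) {A B C : Matrix (Fin 2) (Fin 2) ℤ} (hA : 0 < A.det) (hB : 0 < B.det)
    (hC : 0 < C.det) (h : A * B = C) (f : ℍ → ℂ) :
    (f ∣[k] glZ A hA) ∣[k] glZ B hB = f ∣[k] glZ C hC := by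
  rw [← SlashAction.slash_mul, glZ_mul hA hB hC h]

end Fermat.Agent.TOR.NF
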