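import Fermat.Agent.TOR.NF.AL

/-!
# TOR / NF : the trace from level `q M'` to level `M'`, in the form `f + U_q (f ∣ W)`
-/

set_option autoImplicit false

open Matrix.SpecialLinearGroup UpperHalfPlane
open scoped MatrixGroups ModularForm
open P2MW.S_ModularForm_heckeT_slash_eq_self_of_mem_Gamma0.ModularForm.HeckeSlashInvariance

namespace Fermat.Agent.TOR.NF

/-- Sums over a system of representatives of `H \ G` are `G`-invariant. -/
theorem sum_slash_reps_invariant {ι : Type} [Fintype ι] (k : ℤ) (H G : Subgroup SL(2, ℤ))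
    (r : ι → SL(2, ℤ)) (hr : ∀ i, r i ∈ G) (hcover : ∀ g ∈ G, ∃ i, g * (r i)⁻¹ ∈ H)
    (hdist : ∀ i j, r i * (r j)⁻¹ ∈ H → i = j) (f : ℍ → ℂ)
    (hf : ∀ h ∈ H, f ∣[k] mapGL ℝ h = f) (γ : SL(2, ℤ)) (hγ : γ ∈ G) :
    (∑ i, f ∣[k] mapGL ℝ (r i)) ∣[k] mapGL ℝ γ = ∑ i, f ∣[k] mapGL ℝ (r i) := by
  choose π hπ using fun i => hcover (r i * γ) (G.mul_mem (hr i) hγ)
  have hinj : Function.Injective π := by
    intro i j hij
    apply hdist
    have h1 := hπ i
    have h2 := hπ j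
    rw [← hij] at h2
    have h3 := H.mul_mem h1 (H.inv_mem h2)
    have : r i * γ * (r (π i))⁻¹ * (r j * γ * (r (π i))⁻¹)⁻¹ = r i * (r j)⁻¹ := by group
    rwa [this] at h3
  have hbij : Function.Bijective π := Finite.injective_iff_bijective.mp hinj
  rw [SlashAction.sum_slash, ← hbij.sum_comp (fun i => f ∣[k] mapGL ℝ (r i))]
  refine Finset.sum_congr rfl fun i _ => ?_
  rw [← SlashAction.slash_mul, ← map_mul]
  have : r i * γ = (r i * γ * (r (π i))⁻¹) * r (π i) := by group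
  rw [this, map_mul, SlashAction.slash_mul, hf _ (hπ i)]

variable {q M' : ℕ}

/-- the representatives of `Γ₀(q M') \ Γ₀(M')`. -/
noncomputable def trRep (q M' : ℕ) {a b c d : ℤ} (h : (q : ℤ) * a * d - M' * b * c = 1) :
    Option (ZMod q) → SL(2, ℤ)
  | none => 1
  | some x => slOf (trMat q M' a b c d (x.val : ℤ)) (trMat_det q M' h _)

theorem mul_inv_one_zero (g r : SL(2, ℤ)) : (g * r⁻¹) 1 0 = g 1 0 * r 1 1 - g 1 1 * r 1 0 := by
  rw [Matrix.SpecialLinearGroup.coe_mul, Matrix.SpecialLinearGroup.SL2_inv_expl, Matrix.mul_apply,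
    Fin.sum_univ_two]
  simp
  ring

theorem mem_Gamma0_iff {N : ℕ} (g : SL(2, ℤ)) :
    g ∈ CongruenceSubgroup.Gamma0 N ↔ (N : ℤ) ∣ g 1 0 := by
  rw [CongruenceSubgroup.Gamma0_mem, ZMod.intCast_zmod_eq_zero_iff_dvd]

theorem trRep_mem (q M' : ℕ) {a b c d : ℤ} (h : (q : ℤ) * a * d - M' * b * c = 1)
    (i : Option (ZMod q)) : trRep q M' h i ∈ CongruenceSubgroup.Gamma0 M' := by
  cases i with
  | none => exact Subgroup.one_mem _
  | some x =>
    rw [trRep, slOf_mem_Gamma0]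
    exact ⟨c, by simp [trMat]⟩

theorem not_dvd_c {a b c d : ℤ} (hq : q.Prime) (h : (q : ℤ) * a * d - M' * b * c = 1) :
    ¬ (q : ℤ) ∣ c := by
  rintro ⟨t, rfl⟩
  have h1 : (q : ℤ) ∣ 1 := ⟨a * d - M' * b * t, by linear_combination -h⟩
  have := Int.le_of_dvd one_pos h1
  have h2 := hq.two_le
  omega

theorem trRep_cover (hq : q.Prime) (hqM' : ¬ q ∣ M') {a b c d : ℤ}
    (h : (q : ℤ) * a * d - M' * b * c = 1) (g : SL(2, ℤ))
    (hg : g ∈ CongruenceSubgroup.Gamma0 M') :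
    ∃ i, g * (trRep q M' h i)⁻¹ ∈ CongruenceSubgroup.Gamma0 (q * M') := by
  have : Fact q.Prime := ⟨hq⟩
  rw [mem_Gamma0_iff] at hg
  obtain ⟨g', hg'⟩ := hg
  by_cases hqg : (q : ℤ) ∣ g'
  · refine ⟨none, ?_⟩
    obtain ⟨t, rfl⟩ := hqg
    rw [trRep, inv_one, mul_one, mem_Gamma0_iff, hg']
    exact ⟨t, by push_cast; ring⟩
  · have hg0 : (g' : ZMod q) ≠ 0 := by
      rwa [Ne, ZMod.intCast_zmod_eq_zero_iff_dvd]
    have hM0 : (M' : ZMod q) ≠ 0 := by
      rwa [Ne, ZMod.natCast_eq_zero_iff]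
    set x : ZMod q := (g 1 1 : ZMod q) * ((g' : ZMod q) * (M' : ZMod q))⁻¹ with hx
    refine ⟨some x, ?_⟩
    have key : (q : ℤ) ∣ g' * (M' * c * (x.val : ℤ) + q * d) - g 1 1 * c := by
      rw [← ZMod.intCast_zmod_eq_zero_iff_dvd]
      push_cast
      rw [ZMod.natCast_zmod_val, ZMod.natCast_self, hx]
      field_simp
      ring
    obtain ⟨t, ht⟩ := key
    rw [mem_Gamma0_iff, mul_inv_one_zero, trRep, slOf_apply, slOf_apply, hg']
    refine ⟨t, ?_⟩
    simp only [trMat, Matrix.of_apply, Matrix.cons_val', Matrix.cons_val_zero, Matrix.cons_val_one,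
      Matrix.cons_val_fin_one]
    push_cast
    linear_combination (M' : ℤ) * ht

theorem trRep_dist (hq : q.Prime) (hM' : M' ≠ 0) (hqM' : ¬ q ∣ M') {a b c d : ℤ}
    (h : (q : ℤ) * a * d - M' * b * c = 1) (i j : Option (ZMod q))
    (hij : trRep q M' h i * (trRep q M' h j)⁻¹ ∈ CongruenceSubgroup.Gamma0 (q * M')) : i = j := by
  have : Fact q.Prime := ⟨hq⟩
  have hqp : Prime (q : ℤ) := Nat.prime_iff_prime_int.mp hq
  have hc := not_dvd_c hq h
  have hMZ : (M' : ℤ) ≠ 0 := by exact_mod_cast hM'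
  have hqMZ : ¬ (q : ℤ) ∣ (M' : ℤ) := by rwa [Int.natCast_dvd_natCast]
  rw [mem_Gamma0_iff, mul_inv_one_zero] at hij
  obtain ⟨t, ht⟩ := hij
  cases i with
  | none =>
    cases j with
    | none => rfl
    | some y =>
      exfalso
      apply hc
      simp only [trRep, slOf_apply, trMat, Matrix.of_apply, Matrix.cons_val', Matrix.cons_val_zero,
        Matrix.cons_val_one, Matrix.cons_val_fin_one, Matrix.SpecialLinearGroup.coe_one,
        Matrix.one_apply_eq, ne_eq, one_ne_zero, not_false_eq_true, Matrix.one_apply_ne] at ht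
      refine ⟨-t, ?_⟩
      apply mul_left_cancel₀ hMZ
      push_cast at ht
      linear_combination -ht
  | some x =>
    cases j with
    | none =>
      exfalso
      apply hc
      simp only [trRep, slOf_apply, trMat, Matrix.of_apply, Matrix.cons_val', Matrix.cons_val_zero,
        Matrix.cons_val_one, Matrix.cons_val_fin_one, Matrix.SpecialLinearGroup.coe_one,
        Matrix.one_apply_eq, ne_eq, one_ne_zero, not_false_eq_true, Matrix.one_apply_ne] at ht
      refine ⟨t, ?_⟩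
      apply mul_left_cancel₀ hMZ
      push_cast at ht
      linear_combination ht
    | some y =>
      simp only [trRep, slOf_apply, trMat, Matrix.of_apply, Matrix.cons_val', Matrix.cons_val_zero,
        Matrix.cons_val_one, Matrix.cons_val_fin_one] at ht
      have h1 : (q : ℤ) ∣ (M' : ℤ) * (c * c * ((y.val : ℤ) - (x.val : ℤ))) := by
        refine ⟨t, ?_⟩
        apply mul_left_cancel₀ hMZ
        push_cast at ht
        linear_combination ht
      have h2 := (hqp.dvd_or_dvd h1).resolve_left hqMZ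
      have h3 := (hqp.dvd_or_dvd h2).resolve_left
        (fun h' => (hqp.dvd_or_dvd h').elim hc hc)
      rw [← ZMod.intCast_zmod_eq_zero_iff_dvd] at h3
      push_cast at h3
      rw [ZMod.natCast_zmod_val, ZMod.natCast_zmod_val, sub_eq_zero] at h3
      rw [h3]

/-- the trace `f + U_q (f ∣ W)`. -/
noncomputable def trFun (hq : 0 < q) (M' : ℕ) {a b c d : ℤ}
    (h : (q : ℤ) * a * d - M' * b * c = 1) (f : ℍ → ℂ) : ℍ → ℂ :=
  f + ModularForm.heckeU 2 q (f ∣[(2 : ℤ)] glZ (alMat q M' a b c d) (alMat_det_pos hq M' h))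

theorem trFun_eq_sum (hq : q.Prime) {a b c d : ℤ}
    (h : (q : ℤ) * a * d - M' * b * c = 1) (f : ℍ → ℂ) :
    haveI : NeZero q := ⟨hq.ne_zero⟩
    trFun hq.pos M' h f = ∑ i, f ∣[(2 : ℤ)] mapGL ℝ (trRep q M' h i) := by
  have : NeZero q := ⟨hq.ne_zero⟩
  rw [Fintype.sum_option, trFun, heckeU_eq_sum_zmod]
  congr 1
  · rw [trRep, map_one, SlashAction.slash_one]
  · refine Finset.sum_congr rfl fun x _ => ?_
    rw [slash_alMat_heckeMatrix hq.pos f h, trRep, mapGL_slOf _ _ (trMat_det_pos q M' h _)]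

theorem Inv.trFun (hq : q.Prime) (hM' : M' ≠ 0) (hqM' : ¬ q ∣ M') {a b c d : ℤ}
    (h : (q : ℤ) * a * d - M' * b * c = 1) {f : ℍ → ℂ} (hf : Inv (q * M') f) :
    Inv M' (trFun hq.pos M' h f) := by
  have : NeZero q := ⟨hq.ne_zero⟩
  apply Inv.of_forall
  rintro _ ⟨γ, hγ, rfl⟩
  rw [trFun_eq_sum hq h f]
  exact sum_slash_reps_invariant 2 (CongruenceSubgroup.Gamma0 (q * M'))
    (CongruenceSubgroup.Gamma0 M') (trRep q M' h) (trRep_mem q M' h)
    (trRep_cover hq hqM' h) (trRep_dist hq hM' hqM' h) f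
    (fun g hg => hf.forall _ ⟨g, hg, rfl⟩) γ hγ

end Fermat.Agent.TOR.NF
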